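/-
DELTA / I6 (helper3), package (H), file 1: **the norm commutes with reduction** when the residue
degree equals the degree.

`(F, O) ⊂ (F', O')` an extension of valued fields (`O` a valuation ring of `F`, `O'` a subring of
`F'` over it), residue maps `r : O → E`, `r' : O' → E'` (`r'` onto, `ker r` = non-units), and
`[E' : E] = [F' : F] < ∞`.  Then every lift of an `E`-basis of `E'` to `O'` is an `F`-basis of `F'`
which is orthonormal, and for `x ∈ O'`:  `N_{F'/F}(x) ∈ O` and `r (N x) = N_{E'/E} (r' x)`.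
-/
import Mathlib

set_option autoImplicit false
set_option linter.unusedSectionVars false
set_option linter.unusedVariables false
set_option linter.style.haveILetI false

namespace Fermat.Agent.Delta

open Module

/-- the data of an unramified extension of valued fields without defect -/
structure DlhRedExt {F F' E E' : Type*} [Field F] [Field F'] [Field E] [Field E'] [Algebra F F']
    [Algebra E E'] (O : Subring F) (O' : Subring F') (r : ↥O →+* E) (r' : ↥O' →+* E') : Prop where
  /-- `O` is a valuation ring -/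
  total : ∀ x : F, x ∈ O ∨ x⁻¹ ∈ O
  /-- the kernel of `r` consists of non-units -/
  unit : ∀ x : ↥O, r x ≠ 0 → ((x : F))⁻¹ ∈ O
  surj' : Function.Surjective r'
  map_mem : ∀ x : ↥O, algebraMap F F' (x : F) ∈ O'
  comp : ∀ x : ↥O, r' ⟨algebraMap F F' (x : F), map_mem x⟩ = algebraMap E E' (r x)

namespace DlhRedExt

variable {F F' E E' : Type*} [Field F] [Field F'] [Field E] [Field E'] [Algebra F F']
  [Algebra E E'] {O : Subring F} {O' : Subring F'} {r : ↥O →+* E} {r' : ↥O' →+* E'}
  (d : DlhRedExt O O' r r')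

include d

/-- an element of `F` outside `O` has its inverse in the kernel of `r` -/
theorem res_inv_eq_zero {a : F} (ha : a ∉ O) : ∃ h : a⁻¹ ∈ O, r ⟨a⁻¹, h⟩ = 0 := by
  have h1 : a⁻¹ ∈ O := (d.total a).resolve_left ha
  refine ⟨h1, ?_⟩
  by_contra h2
  have := d.unit ⟨a⁻¹, h1⟩ h2
  simp only [inv_inv] at this
  exact ha this

/-- among finitely many elements of `F`, not all zero, one divides all the others -/
theorem exists_max {n : ℕ} (a : Fin n → F) (ha : ∃ i, a i ≠ 0) :
    ∃ i₀, a i₀ ≠ 0 ∧ ∀ i, a i / a i₀ ∈ O := by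
  classical
  let A : ValuationSubring F := { O with mem_or_inv_mem' := d.total }
  have hA : ∀ x : F, x ∈ A ↔ x ∈ O := fun x => Iff.rfl
  obtain ⟨i₁, hi₁⟩ := ha
  obtain ⟨i₀, -, hi₀⟩ := Finset.exists_max_image (Finset.univ : Finset (Fin n))
    (fun i => A.valuation (a i)) ⟨i₁, Finset.mem_univ _⟩
  have h0 : a i₀ ≠ 0 := by
    intro h0
    have h1 := hi₀ i₁ (Finset.mem_univ _)
    rw [h0, map_zero] at h1
    exact hi₁ ((Valuation.zero_iff _).mp (le_antisymm h1 zero_le'))
  refine ⟨i₀, h0, fun i => ?_⟩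
  rw [← hA, ← A.valuation_le_one_iff, map_div₀]
  exact div_le_one_of_le₀ (hi₀ i (Finset.mem_univ _)) zero_le'

/-- **orthonormality of lifts of a residue basis**: a combination lying in `O'` has all its
coefficients in `O`; in particular the lifts are linearly independent -/
theorem orth {n : ℕ} (b : Fin n → ↥O') (hb : LinearIndependent E (fun i => r' (b i)))
    (a : Fin n → F) (s : ↥O') (hs : ∑ i, a i • ((b i : ↥O') : F') = (s : F')) :
    ∀ i, a i ∈ O := by
  classical
  by_contra hcon
  rw [not_forall] at hcon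
  obtain ⟨i₁, hi₁⟩ := hcon
  have hne : ∃ i, a i ≠ 0 := ⟨i₁, fun h0 => hi₁ (h0 ▸ O.zero_mem)⟩
  obtain ⟨i₀, h0, hmax⟩ := d.exists_max a hne
  -- `a i₀ ∉ O`
  have hi₀ : a i₀ ∉ O := by
    intro h1
    apply hi₁
    have := O.mul_mem (hmax i₁) h1
    rwa [div_mul_cancel₀ _ h0] at this
  obtain ⟨hinv, hinv0⟩ := d.res_inv_eq_zero hi₀
  -- the normalised combination
  have h2 : ∑ i, (algebraMap F F' (a i / a i₀)) * ((b i : ↥O') : F') =
      algebraMap F F' (a i₀)⁻¹ * (s : F') := by
    rw [← hs, Finset.mul_sum]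
    refine Finset.sum_congr rfl (fun i _ => ?_)
    rw [Algebra.smul_def, ← mul_assoc, ← map_mul, div_eq_inv_mul]
  have h3 : ∑ i, (⟨algebraMap F F' (a i / a i₀), d.map_mem ⟨_, hmax i⟩⟩ : ↥O') * b i =
      ⟨algebraMap F F' (a i₀)⁻¹, d.map_mem ⟨_, hinv⟩⟩ * s := by
    apply Subtype.ext
    rw [Subring.coe_mul]
    simp only [AddSubmonoidClass.coe_finset_sum, Subring.coe_mul]
    exact h2
  have h4 := congrArg r' h3
  rw [map_mul, map_sum, d.comp ⟨_, hinv⟩, hinv0, map_zero, zero_mul] at h4
  have h5 : ∑ i, r ⟨a i / a i₀, hmax i⟩ • r' (b i) = 0 := by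
    rw [← h4]
    refine Finset.sum_congr rfl (fun i _ => ?_)
    rw [Algebra.smul_def, map_mul, ← d.comp ⟨_, hmax i⟩]
  have h6 := Fintype.linearIndependent_iff.mp hb _ h5 i₀
  have h7 : (⟨a i₀ / a i₀, hmax i₀⟩ : ↥O) = 1 := Subtype.ext (div_self h0)
  rw [h7, map_one] at h6
  exact one_ne_zero h6

theorem linearIndependent_lift {n : ℕ} (b : Fin n → ↥O')
    (hb : LinearIndependent E (fun i => r' (b i))) :
    LinearIndependent F (fun i => ((b i : ↥O') : F')) := by
  classical
  rw [Fintype.linearIndependent_iff]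
  intro a ha
  by_contra hcon
  rw [not_forall] at hcon
  obtain ⟨i₁, hi₁⟩ := hcon
  obtain ⟨i₀, h0, hmax⟩ := d.exists_max a ⟨i₁, hi₁⟩
  -- scale by a non-integral constant
  have h1 : ∑ i, (a i / a i₀) • ((b i : ↥O') : F') = ((0 : ↥O') : F') := by
    have : ∑ i, (a i / a i₀) • ((b i : ↥O') : F') = (a i₀)⁻¹ • ∑ i, a i • ((b i : ↥O') : F') := by
      rw [Finset.smul_sum]
      refine Finset.sum_congr rfl (fun i _ => ?_)
      rw [smul_smul, div_eq_inv_mul]
    rw [this, ha, smul_zero]
    rfl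
  -- reduce
  have h3 : ∑ i, (⟨algebraMap F F' (a i / a i₀), d.map_mem ⟨_, hmax i⟩⟩ : ↥O') * b i = 0 := by
    apply Subtype.ext
    simp only [AddSubmonoidClass.coe_finset_sum, Subring.coe_mul]
    rw [← h1]
    refine Finset.sum_congr rfl (fun i _ => ?_)
    rw [Algebra.smul_def]
  have h4 := congrArg r' h3
  rw [map_sum, map_zero] at h4
  have h5 : ∑ i, r ⟨a i / a i₀, hmax i⟩ • r' (b i) = 0 := by
    rw [← h4]
    refine Finset.sum_congr rfl (fun i _ => ?_)
    rw [Algebra.smul_def, map_mul, ← d.comp ⟨_, hmax i⟩]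
  have h6 := Fintype.linearIndependent_iff.mp hb _ h5 i₀
  have h7 : (⟨a i₀ / a i₀, hmax i₀⟩ : ↥O) = 1 := Subtype.ext (div_self h0)
  rw [h7, map_one] at h6
  exact one_ne_zero h6

/-- **the norm commutes with reduction** -/
theorem norm_red [FiniteDimensional E E'] (hdeg : finrank F F' = finrank E E') (x : ↥O') :
    ∃ h : Algebra.norm F (x : F') ∈ O, r ⟨_, h⟩ = Algebra.norm E (r' x) := by
  classical
  set n := finrank E E' with hn
  let bb : Basis (Fin n) E E' := Module.finBasis E E'
  choose b hb using fun i => d.surj' (bb i)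
  have hbb : (fun i => r' (b i)) = bb := funext hb
  have hli : LinearIndependent E (fun i => r' (b i)) := by
    rw [hbb]; exact bb.linearIndependent
  have hliF := d.linearIndependent_lift b hli
  haveI : Nonempty (Fin n) := ⟨⟨0, Module.finrank_pos⟩⟩
  let B : Basis (Fin n) F F' := basisOfLinearIndependentOfCardEqFinrank hliF (by
    rw [Fintype.card_fin, hdeg])
  have hB : ∀ i, B i = ((b i : ↥O') : F') := fun i => by
    rw [coe_basisOfLinearIndependentOfCardEqFinrank]
  -- the matrix of multiplication by `x` has entries in `O`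
  have hM : ∀ i j, Algebra.leftMulMatrix B (x : F') i j ∈ O := by
    intro i j
    have h1 : ∑ i, Algebra.leftMulMatrix B (x : F') i j • ((b i : ↥O') : F') =
        ((x * b j : ↥O') : F') := by
      simp only [Algebra.leftMulMatrix_eq_repr_mul, ← hB]
      rw [B.sum_repr, hB, Subring.coe_mul]
    exact d.orth b hli _ _ h1 i
  let M : Matrix (Fin n) (Fin n) ↥O := fun i j => ⟨_, hM i j⟩
  have hMF : Algebra.leftMulMatrix B (x : F') = M.map O.subtype := by
    ext i j; rfl
  have hdet : Algebra.norm F (x : F') = ((M.det : ↥O) : F) := by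
    rw [Algebra.norm_eq_matrix_det B, hMF, ← RingHom.mapMatrix_apply, ← RingHom.map_det]
    rfl
  refine ⟨hdet ▸ (M.det).2, ?_⟩
  have h2 : (⟨Algebra.norm F (x : F'), hdet ▸ (M.det).2⟩ : ↥O) = M.det := Subtype.ext hdet
  rw [h2, RingHom.map_det, Algebra.norm_eq_matrix_det bb]
  congr 1
  ext i j
  rw [RingHom.mapMatrix_apply, Matrix.map_apply, Algebra.leftMulMatrix_eq_repr_mul]
  -- reduce the relation `x * b j = ∑ M i j * b i`
  have h3 : x * b j = ∑ i, (⟨algebraMap F F' ((M i j : ↥O) : F), d.map_mem (M i j)⟩ : ↥O') * b i := by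
    apply Subtype.ext
    simp only [AddSubmonoidClass.coe_finset_sum, Subring.coe_mul]
    have h4 : ∑ i, Algebra.leftMulMatrix B (x : F') i j • B i = (x : F') * B j := by
      simp only [Algebra.leftMulMatrix_eq_repr_mul]
      rw [B.sum_repr]
    rw [hB] at h4
    rw [← h4]
    refine Finset.sum_congr rfl (fun i _ => ?_)
    rw [Algebra.smul_def, hB]
  have h5 := congrArg r' h3
  rw [map_mul, map_sum, hb] at h5
  have h6 : ∑ i, r' ((⟨algebraMap F F' ((M i j : ↥O) : F), d.map_mem (M i j)⟩ : ↥O') * b i) =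
      ∑ i, r (M i j) • bb i := by
    refine Finset.sum_congr rfl (fun i _ => ?_)
    rw [map_mul, d.comp (M i j), hb, Algebra.smul_def]
  rw [h5, h6, bb.repr_sum_self]

end DlhRedExt

end Fermat.Agent.Delta
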