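/-
DELTA / I6 (helper3), package (H), file 0: two abstract tower lemmas along an embedding
`φ : E →ₐ[k] E'` of function fields with a coordinate `j ∈ E`:
`[E : k(j)] · [E' : φ E] = [E' : k(φ j)]`, and `E' / k(φ j)` separable ⇒ `E' / φ E` separable.
-/
import Mathlib
import Fermat.Prelude.Def_AlgebraicCurve_Correspondence

set_option autoImplicit false
set_option linter.unusedSectionVars false
set_option linter.unusedVariables false
set_option linter.style.haveILetI false

namespace Fermat.Agent.Delta

open AlgebraicCurve IntermediateField Module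

variable {k E E' : Type*} [Field k] [Field E] [Field E'] [Algebra k E] [Algebra k E']
  (φ : E →ₐ[k] E') (j : E)

theorem dlh_finrank_tower :
    finrank ↥k⟮j⟯ E * (@finrank E E' _ _ (algebraAlong φ).toModule) = finrank ↥k⟮φ j⟯ E' := by
  letI := algebraAlong φ
  set K₀ : IntermediateField k E := k⟮j⟯ with hK₀
  letI : Algebra K₀ E' := (φ.toRingHom.comp (algebraMap K₀ E)).toAlgebra
  haveI : IsScalarTower K₀ E E' := IsScalarTower.of_algebraMap_eq (fun _ => rfl)
  have h1 : finrank K₀ E * finrank E E' = finrank K₀ E' := Module.finrank_mul_finrank K₀ _ _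
  have hmap : K₀.map φ = k⟮φ j⟯ := by
    rw [hK₀, IntermediateField.adjoin_map, Set.image_singleton]
  let i : K₀ ≃ₐ[k] k⟮φ j⟯ := (K₀.equivMap φ).trans (IntermediateField.equivOfEq hmap)
  have h2 : finrank K₀ E' = finrank ↥k⟮φ j⟯ E' := by
    refine Algebra.finrank_eq_of_equiv_equiv i.toRingEquiv (RingEquiv.refl _) ?_
    ext z
    rfl
  rw [← h2]
  exact h1

theorem dlh_separable_tower [Algebra.IsSeparable ↥k⟮φ j⟯ E'] :
    @Algebra.IsSeparable E E' _ _ (algebraAlong φ) := by
  letI := algebraAlong φ
  set K₀ : IntermediateField k E := k⟮j⟯ with hK₀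
  have hmap : K₀.map φ = k⟮φ j⟯ := by
    rw [hK₀, IntermediateField.adjoin_map, Set.image_singleton]
  let i : K₀ ≃ₐ[k] k⟮φ j⟯ := (K₀.equivMap φ).trans (IntermediateField.equivOfEq hmap)
  haveI : Algebra.IsSeparable K₀ E' := by
    refine Algebra.IsSeparable.of_equiv_equiv i.symm.toRingEquiv (RingEquiv.refl _) ?_
    ext z
    obtain ⟨w, rfl⟩ := i.surjective z
    simp only [RingHom.coe_comp, RingHom.coe_coe, Function.comp_apply,
      AlgEquiv.coe_ringEquiv, AlgEquiv.symm_apply_apply, RingEquiv.coe_ringHom_refl,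
      RingHom.id_apply]
    rfl
  exact Algebra.isSeparable_tower_top_of_isSeparable K₀ E E'

end Fermat.Agent.Delta
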