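/-
DELTA / I6 (helper3), package (H), file 3: the degeneracy maps `ᾱ, β̄ : F̄_N → F̄_{Nℓ}` in
characteristic `p`, the degree `[F̄_{Nℓ} : ᾱ F̄_N] = ℓ + 1` at a rigid level, separability, and the
Gauss rings of `F_N ⊂ F_{Nℓ}` as an instance of `DlhRedExt`.
-/
import Mathlib
import Fermat.Agent.Lib.Delta.Hecke.NormRed
import Fermat.Agent.Lib.Delta.Hecke.Tower
import Fermat.Agent.Lib.T3.Hecke.Emb
import Fermat.Agent.Lib.T3.Red.Modular

set_option autoImplicit false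
set_option linter.unusedSectionVars false
set_option linter.unusedVariables false
set_option linter.style.haveILetI false
set_option synthInstance.maxHeartbeats 400000

namespace Fermat.Agent.Delta

open ModularCurve HahnSeries Fermat.Agent.T1 Fermat.Agent.T2 Fermat.Agent.TW Fermat.Agent.S24Lib
  Fermat.Agent.S05Lib AlgebraicCurve Fermat.Agent.Curve Fermat.Agent.T3 IntermediateField Module

local notation "Qb" => AlgebraicClosure ℚ

noncomputable section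

/-- shortcut instance (the generic search for this instance takes several seconds) -/
@[reducible] def dlhAlgK (𝔓 : FFPlace) (N : ℕ) [NeZero N] :
    Algebra (IsLocalRing.ResidueField ↥𝔓.P) ↥(tbBarF 𝔓 N) := inferInstance

attribute [local instance 5000] dlhAlgK

/-! ### The degeneracy maps over an arbitrary field -/

section Maps

variable (K : Type*) [Field K] (N ℓ : ℕ) [NeZero N] [NeZero ℓ]

/-- `ᾱ : x ↦ x` -/
def dlhAlphaC : ↥(modularFunctionFieldFullC K N) →ₐ[K] ↥(modularFunctionFieldFullC K (N * ℓ)) :=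
  IntermediateField.inclusion (full_degeneracyC_le K (dvd_mul_right N ℓ))

@[simp]
theorem coe_dlhAlphaC (x : ↥(modularFunctionFieldFullC K N)) :
    ((dlhAlphaC K N ℓ x : ↥(modularFunctionFieldFullC K (N * ℓ))) : LaurentSeries K) =
      (x : LaurentSeries K) :=
  IntermediateField.coe_inclusion _ x

/-- `β̄ : x(q) ↦ x(q^ℓ)` -/
def dlhBetaC : ↥(modularFunctionFieldFullC K N) →ₐ[K] ↥(modularFunctionFieldFullC K (N * ℓ)) where
  toFun x := ⟨qExpand K ℓ (x : LaurentSeries K),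
    full_degeneracyC_map_le K N ℓ ⟨(x : LaurentSeries K), x.2, rfl⟩⟩
  map_one' := Subtype.ext (map_one (qExpand K ℓ))
  map_mul' _ _ := Subtype.ext (map_mul (qExpand K ℓ) _ _)
  map_zero' := Subtype.ext (map_zero (qExpand K ℓ))
  map_add' _ _ := Subtype.ext (map_add (qExpand K ℓ) _ _)
  commutes' a := Subtype.ext <| by
    show qExpand K ℓ (algebraMap K (LaurentSeries K) a) = algebraMap K (LaurentSeries K) a
    rw [algebraMap_laurentSeries_eq_single, qExpand_single, mul_zero]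

@[simp]
theorem coe_dlhBetaC (x : ↥(modularFunctionFieldFullC K N)) :
    ((dlhBetaC K N ℓ x : ↥(modularFunctionFieldFullC K (N * ℓ))) : LaurentSeries K) =
      qExpand K ℓ (x : LaurentSeries K) := rfl

end Maps

/-! ### Degree and separability at a rigid level -/

section Degree

variable (𝔓 : FFPlace) (N ℓ : ℕ) [NeZero N] [NeZero ℓ]

theorem dlh_alpha_barJ :
    dlhAlphaC (IsLocalRing.ResidueField ↥𝔓.P) N ℓ (tbBarJ 𝔓 N) = tbBarJ 𝔓 (N * ℓ) :=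
  Subtype.ext (coe_dlhAlphaC _ N ℓ _)

/-- `[F̄_N : κ(j̄)] = ψ(N)` at a rigid level -/
theorem dlh_finrank_barJ (h49 : 4 ∣ N ∨ 9 ∣ N) (hN : ¬ 𝔓.p ∣ N) :
    finrank ↥((IsLocalRing.ResidueField ↥𝔓.P)⟮tbBarJ 𝔓 N⟯) ↥(tbBarF 𝔓 N) = dedekindPsi N := by
  have h0 := (tkr_barOK 𝔓 h49 hN).deg
  have h1 : tbJ N = jBar N := Subtype.ext rfl
  have h2 := finrank_jBar N
  rw [← h0, h1]
  exact h2

variable {N ℓ}

theorem dlh_not_dvd_mul (hN : ¬ 𝔓.p ∣ N) (hℓ : ℓ.Prime) (hℓp : ℓ ≠ 𝔓.p) : ¬ 𝔓.p ∣ N * ℓ := by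
  intro h
  rcases (Nat.Prime.dvd_mul 𝔓.hp).mp h with h1 | h1
  · exact hN h1
  · exact hℓp ((Nat.prime_dvd_prime_iff_eq 𝔓.hp hℓ).mp h1).symm

/-- `[F̄_{Nℓ} : ᾱ F̄_N] = ℓ + 1` -/
theorem dlh_finrank_alphaC (h49 : 4 ∣ N ∨ 9 ∣ N) (hN : ¬ 𝔓.p ∣ N) (hℓ : ℓ.Prime) (hℓN : ¬ ℓ ∣ N)
    (hℓp : ℓ ≠ 𝔓.p) :
    @finrank ↥(tbBarF 𝔓 N) ↥(tbBarF 𝔓 (N * ℓ)) _ _
      (algebraAlong (dlhAlphaC (IsLocalRing.ResidueField ↥𝔓.P) N ℓ)).toModule = ℓ + 1 := by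
  have h49' : 4 ∣ N * ℓ ∨ 9 ∣ N * ℓ := h49.imp (fun h => h.mul_right ℓ) (fun h => h.mul_right ℓ)
  have hN' : ¬ 𝔓.p ∣ N * ℓ := dlh_not_dvd_mul 𝔓 hN hℓ hℓp
  have h1 := dlh_finrank_tower (dlhAlphaC (IsLocalRing.ResidueField ↥𝔓.P) N ℓ) (tbBarJ 𝔓 N)
  rw [dlh_alpha_barJ, dlh_finrank_barJ 𝔓 N h49 hN, dlh_finrank_barJ 𝔓 (N * ℓ) h49' hN',
    Fermat.Agent.Igusa.igPsi_mul_prime_of_not_dvd hℓ hℓN] at h1
  have hpos : 0 < dedekindPsi N := by
    rw [← finrank_jBar N]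
    haveI : FiniteDimensional ↥Qb⟮jBar N⟯ ↥(modularFunctionFieldBar N) :=
      (isFunctionFieldGen_jBar N).finite
    exact Module.finrank_pos
  exact Nat.eq_of_mul_eq_mul_left hpos h1

/-- `F̄_{Nℓ} / ᾱ F̄_N` is separable -/
theorem dlh_separable_alphaC (h49 : 4 ∣ N ∨ 9 ∣ N) (hN : ¬ 𝔓.p ∣ N) (hℓ : ℓ.Prime)
    (hℓp : ℓ ≠ 𝔓.p) :
    @Algebra.IsSeparable ↥(tbBarF 𝔓 N) ↥(tbBarF 𝔓 (N * ℓ)) _ _
      (algebraAlong (dlhAlphaC (IsLocalRing.ResidueField ↥𝔓.P) N ℓ)) := by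
  have h49' : 4 ∣ N * ℓ ∨ 9 ∣ N * ℓ := h49.imp (fun h => h.mul_right ℓ) (fun h => h.mul_right ℓ)
  have hN' : ¬ 𝔓.p ∣ N * ℓ := dlh_not_dvd_mul 𝔓 hN hℓ hℓp
  have hsep := (tkr_barOK 𝔓 h49' hN').sep
  rw [← dlh_alpha_barJ 𝔓 N ℓ] at hsep
  haveI := hsep
  exact dlh_separable_tower (dlhAlphaC (IsLocalRing.ResidueField ↥𝔓.P) N ℓ) (tbBarJ 𝔓 N)

end Degree

end

end Fermat.Agent.Delta
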