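/-
DELTA / I6 (helper3), package (H), file 2: **`p`-divisibility of the order of a norm**, in any
characteristic.

`F'/F` a finite separable extension of function fields over `K`, `v` a place of `F`, `z ∈ F'ˣ`.
If `p ∣ ord_w z` for all places `w` of `F'` over `v`, then `p ∣ ord_v (N_{F'/F} z)`.

(The exact formula `ord_v (N z) = ∑ f_w ord_w z` is only available in Mathlib when `F` is perfect; the
proof here writes `z = h ^ p * u` with `u` a unit at all `w ∣ v`, and uses that norms of integral
elements are integral.)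
-/
import Mathlib
import Fermat.Agent.Lib.T3.Hecke.Local

set_option autoImplicit false
set_option linter.unusedSectionVars false
set_option linter.unusedVariables false
set_option linter.style.haveILetI false

namespace Fermat.Agent.Delta

open AlgebraicCurve IsDedekindDomain WithZero Fermat.Agent.Curve Fermat.Agent.Curve.PlaceAux
  Fermat.Agent.T3

variable {K F F' : Type*} [Field K] [Field F] [Field F'] [Algebra K F] [Algebra K F']
  [Algebra F F'] [IsScalarTower K F F'] [FiniteDimensional F F'] [Algebra.IsSeparable F F']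
  (v : Place K F)

attribute [local instance] t3hS_isDedekindDomain t3hS_isFractionRing t3hS_moduleFinite
  t3hS_algebra t3hS_isScalarTower t3hS_fintype

/-- an element which is integral over `O_v` has a norm of non-negative order -/
theorem dlh_ord_norm_nonneg {u : F'} (hu : IsIntegral v.toValuationSubring u) :
    0 ≤ v.ord (Algebra.norm F u) := by
  have h1 : IsIntegral v.toValuationSubring (Algebra.norm F u) := Algebra.isIntegral_norm F hu
  obtain ⟨y, hy⟩ := IsIntegrallyClosed.isIntegral_iff.mp h1
  apply ord_nonneg_of_mem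
  rw [← hy]
  exact y.2

/-- an element of `F'` with trivial valuation at all primes over `v` has a norm of order `0` -/
theorem dlh_ord_norm_unit {u : F'} (hu0 : u ≠ 0)
    (hu : ∀ Q : HeightOneSpectrum (t3hS F' v), Q.valuation F' u = 1) :
    v.ord (Algebra.norm F u) = 0 := by
  have hint : ∀ x : F', (∀ Q : HeightOneSpectrum (t3hS F' v), Q.valuation F' x = 1) →
      IsIntegral v.toValuationSubring x := by
    intro x hx
    obtain ⟨y, hy⟩ := HeightOneSpectrum.mem_integers_of_valuation_le_one F' x
      (fun Q => (hx Q).le)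
    rw [← hy]
    exact y.2
  have h1 := dlh_ord_norm_nonneg v (hint u hu)
  have h2 := dlh_ord_norm_nonneg v (hint u⁻¹ (fun Q => by rw [map_inv₀, hu Q, inv_one]))
  have h3 : Algebra.norm F u⁻¹ = (Algebra.norm F u)⁻¹ := by
    apply eq_inv_of_mul_eq_one_left
    rw [← map_mul, inv_mul_cancel₀ hu0, map_one]
  rw [h3, Place.ord_inv] at h2
  omega

/-- elements of `F'` with prescribed valuations at all primes over `v` -/
theorem dlh_exists_valuation (n : HeightOneSpectrum (t3hS F' v) → ℤ) :
    ∃ h : F', h ≠ 0 ∧ ∀ Q : HeightOneSpectrum (t3hS F' v), Q.valuation F' h = exp (-(n Q)) := by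
  classical
  haveI : IsPrincipalIdealRing (t3hS F' v) := t3h_isPrincipalIdealRing_of_fintype (t3hS F' v)
  have hgen : ∀ Q : HeightOneSpectrum (t3hS F' v), ∃ a : t3hS F' v, Q.asIdeal = Ideal.span {a} :=
    fun Q => (IsPrincipalIdealRing.principal Q.asIdeal).principal
  choose π hπ using hgen
  have hπ0 : ∀ Q, π Q ≠ 0 := by
    intro Q h0
    apply Q.ne_bot
    rw [hπ Q, h0, Ideal.span_singleton_eq_bot]
  have hπF : ∀ Q, algebraMap (t3hS F' v) F' (π Q) ≠ 0 := by
    intro Q
    rw [ne_eq, IsFractionRing.to_map_eq_zero_iff]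
    exact hπ0 Q
  have hval : ∀ Q Q' : HeightOneSpectrum (t3hS F' v),
      Q'.valuation F' (algebraMap (t3hS F' v) F' (π Q)) = if Q = Q' then exp (-1 : ℤ) else 1 := by
    intro Q Q'
    rw [HeightOneSpectrum.valuation_of_algebraMap]
    split_ifs with hQ
    · subst hQ
      exact HeightOneSpectrum.intValuation_singleton _ (hπ0 Q) (hπ Q)
    · rw [HeightOneSpectrum.intValuation_eq_one_iff]
      intro hmem
      apply hQ
      have hle : Q.asIdeal ≤ Q'.asIdeal := by
        rw [hπ Q, Ideal.span_le, Set.singleton_subset_iff]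
        exact hmem
      exact HeightOneSpectrum.ext (Q.isMaximal.eq_of_le Q'.isPrime.ne_top hle)
  refine ⟨∏ Q, (algebraMap (t3hS F' v) F' (π Q)) ^ (n Q), ?_, ?_⟩
  · rw [Finset.prod_ne_zero_iff]
    exact fun Q _ => zpow_ne_zero _ (hπF Q)
  · intro Q'
    rw [map_prod, Finset.prod_eq_single Q']
    · rw [map_zpow₀, hval, if_pos rfl, ← exp_zsmul, smul_eq_mul, mul_neg_one]
    · intro Q _ hQ
      rw [map_zpow₀, hval, if_neg hQ, one_zpow]
    · intro h
      exact absurd (Finset.mem_univ _) h

/-- **`p`-divisibility of the order of a norm** -/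
theorem dlh_ord_norm_dvd (p : ℕ) {z : F'} (hz : z ≠ 0)
    (h : ∀ w : Place K F', w.restrict F = v → (p : ℤ) ∣ w.ord z) :
    (p : ℤ) ∣ v.ord (Algebra.norm F z) := by
  classical
  have hQ : ∀ Q : HeightOneSpectrum (t3hS F' v), (p : ℤ) ∣ (t3hPlace v Q).ord z :=
    fun Q => h _ (t3hPlace_restrict v Q)
  obtain ⟨g, hg0, hg⟩ := dlh_exists_valuation v (fun Q => (t3hPlace v Q).ord z / (p : ℤ))
  have hu0 : z / g ^ p ≠ 0 := div_ne_zero hz (pow_ne_zero _ hg0)
  have hu : ∀ Q : HeightOneSpectrum (t3hS F' v), Q.valuation F' (z / g ^ p) = 1 := by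
    intro Q
    rw [map_div₀, map_pow, hg Q, ← t3hPlace_adicValuation v Q z, ← exp_nsmul, nsmul_eq_mul,
      mul_neg, Int.mul_ediv_cancel' (hQ Q)]
    have h1 : (t3hPlace v Q).adicValuation z = exp (-(t3hPlace v Q).ord z) := by
      rw [Place.ord, neg_neg, exp_log ((t3hPlace v Q).adicValuation_ne_zero hz)]
    rw [h1]
    exact div_self (by simp)
  have h1 := dlh_ord_norm_unit v hu0 hu
  have h2 : z = g ^ p * (z / g ^ p) := by
    rw [mul_div_cancel₀ _ (pow_ne_zero _ hg0)]
  have hN : Algebra.norm F g ≠ 0 := by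
    rw [ne_eq, Algebra.norm_eq_zero_iff]
    exact hg0
  have hNu : Algebra.norm F (z / g ^ p) ≠ 0 := by
    rw [ne_eq, Algebra.norm_eq_zero_iff]
    exact hu0
  rw [h2, map_mul, map_pow, v.ord_mul (pow_ne_zero _ hN) hNu, h1, add_zero, ← zpow_natCast,
    Place.ord_zpow]
  exact dvd_mul_right _ _

end Fermat.Agent.Delta
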