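/-
DELTA / I6 (helper3), package (H), file 4: the Gauss rings of `F_N ⊂ F_{Nℓ}` form an unramified
extension without defect (`DlhRedExt`), `β` and `T̃_ℓ` commute with the Gauss reduction, and the
**norm formula in characteristic `p`**:  `T̃_ℓ x̄ = N_{F̄_{Nℓ} / ᾱ F̄_N} (β̄ x̄)`.
-/
import Mathlib
import Fermat.Agent.Lib.Delta.Hecke.Bar
import Fermat.Agent.Lib.Delta.Slope.Tilde
import Fermat.Agent.Lib.T1.Kron.Tilde

set_option autoImplicit false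
set_option linter.unusedSectionVars false
set_option linter.unusedVariables false
set_option linter.style.haveILetI false
set_option synthInstance.maxHeartbeats 400000

namespace Fermat.Agent.Delta

open ModularCurve HahnSeries Fermat.Agent.T1 Fermat.Agent.T2 Fermat.Agent.TW Fermat.Agent.S24Lib
  Fermat.Agent.S05Lib AlgebraicCurve Fermat.Agent.Curve Fermat.Agent.T3 IntermediateField Module

local notation "Qb" => AlgebraicClosure ℚ

noncomputable section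

attribute [local instance 5000] dlhAlgK

/-! ### Generic Gauss lemmas -/

section Generic

variable {K : Type*} [Field K] (A : ValuationSubring K) {k : Type*} [Field k] (π : ↥A →+* k)

/-- a Gauss element with non-zero residue is a Gauss unit -/
theorem dlh_gauss_inv {f : LaurentSeries K} (hf : TbGauss A π f) (h0 : tbRhoFun A π f ≠ 0) :
    TbGauss A π f⁻¹ := by
  obtain ⟨g, h, hh, e⟩ := hf
  have hg : tbRed π g ≠ 0 := by
    intro hg
    apply h0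
    rw [tbRhoFun_eq A π hh e, hg, zero_div]
  have hf0 : f ≠ 0 := by
    rintro rfl
    apply h0
    rw [tbRhoFun_zero]
  refine ⟨h, g, hg, ?_⟩
  rw [← e, ← mul_assoc, inv_mul_cancel₀ hf0, one_mul]

/-- `f(q) ↦ f(q^d)` preserves the Gauss ring and commutes with the reduction -/
theorem dlh_gauss_qExpand {f : LaurentSeries K} (hf : TbGauss A π f) (d : ℕ) [NeZero d] :
    TbGauss A π (qExpand K d f) ∧
      tbRhoFun A π (qExpand K d f) = qExpand k d (tbRhoFun A π f) := by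
  obtain ⟨g, h, hh, e⟩ := hf
  have hi : ∀ s : LaurentSeries ↥A, tbInc A (qExpand ↥A d s) = qExpand K d (tbInc A s) :=
    fun s => coeffMap_qExpand _ d s
  have hr : ∀ s : LaurentSeries ↥A, tbRed π (qExpand ↥A d s) = qExpand k d (tbRed π s) :=
    fun s => coeffMap_qExpand _ d s
  have hh' : tbRed π (qExpand ↥A d h) ≠ 0 := by
    rw [hr]
    exact fun h0 => hh (qExpand_injective (R := k) d (by rw [h0, map_zero]))
  have e' : qExpand K d f * tbInc A (qExpand ↥A d h) = tbInc A (qExpand ↥A d g) := by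
    rw [hi, hi, ← map_mul, e]
  refine ⟨⟨_, _, hh', e'⟩, ?_⟩
  rw [tbRhoFun_eq A π hh' e', tbRhoFun_eq A π hh e, hr, hr, map_div₀]

/-- `T̃_ℓ` preserves the Gauss ring and commutes with the reduction -/
theorem dlh_gauss_tilde {f : LaurentSeries K} (hf : TbGauss A π f) (ℓ : ℕ) [NeZero ℓ] (ζ : (↥A)ˣ)
    (hζK : IsPrimitiveRoot ((Units.map (A.subtype : ↥A →* K) ζ : Kˣ) : K) ℓ)
    (hζk : IsPrimitiveRoot ((Units.map (π : ↥A →* k) ζ : kˣ) : k) ℓ) :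
    TbGauss A π (tkrTilde ℓ hζK f) ∧
      tbRhoFun A π (tkrTilde ℓ hζK f) = tkrTilde ℓ hζk (tbRhoFun A π f) := by
  obtain ⟨g, h, hh, e⟩ := hf
  have hζA : IsPrimitiveRoot ((ζ : (↥A)ˣ) : ↥A) ℓ :=
    IsPrimitiveRoot.of_map_of_injective (f := A.subtype) hζK Subtype.val_injective
  have hi : ∀ s : LaurentSeries ↥A, tbInc A (tkrTilde ℓ hζA s) = tkrTilde ℓ hζK (tbInc A s) :=
    fun s => dls_coeffMap_tilde A.subtype ℓ hζA hζK s
  have hr : ∀ s : LaurentSeries ↥A, tbRed π (tkrTilde ℓ hζA s) = tkrTilde ℓ hζk (tbRed π s) :=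
    fun s => dls_coeffMap_tilde π ℓ hζA hζk s
  have hh' : tbRed π (tkrTilde ℓ hζA h) ≠ 0 := by
    rw [hr]; exact dls_tilde_ne_zero ℓ hζk hh
  have e' : tkrTilde ℓ hζK f * tbInc A (tkrTilde ℓ hζA h) = tbInc A (tkrTilde ℓ hζA g) := by
    rw [hi, hi, ← tkrTilde_mul, e]
  refine ⟨⟨_, _, hh', e'⟩, ?_⟩
  rw [tbRhoFun_eq A π hh' e', tbRhoFun_eq A π hh e, hr, hr]
  -- `T̃ (ḡ / h̄) = T̃ ḡ / T̃ h̄`
  have h1 : tkrTilde ℓ hζk (tbRed π g / tbRed π h) * tkrTilde ℓ hζk (tbRed π h) =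
      tkrTilde ℓ hζk (tbRed π g) := by
    rw [← tkrTilde_mul, div_mul_cancel₀ _ hh]
  rw [hr] at hh'
  rw [← h1, mul_div_cancel_right₀ _ hh']

end Generic

/-! ### The Gauss rings at the levels `N` and `N ℓ` -/

section Level

variable (𝔓 : FFPlace) (N : ℕ) [NeZero N] (hN : ¬ 𝔓.p ∣ N)

include hN in
/-- the Gauss ring of `F_N` is a valuation ring -/
theorem dlh_total (f : ↥(modularFunctionFieldBar N)) : f ∈ tbOvQ 𝔓 N ∨ f⁻¹ ∈ tbOvQ 𝔓 N := by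
  rcases eq_or_ne f 0 with rfl | hf0
  · exact Or.inl (tbOvQ 𝔓 N).zero_mem
  obtain ⟨c, a, b, hc, -, -, -, -, ha, hb, hrel⟩ := tbq_normalForm (t3aOK 𝔓 N hN) f hf0
  have hrel' : (f : LaurentSeries Qb) * tbInc 𝔓.P b = HahnSeries.C c * tbInc 𝔓.P a := by
    rw [HahnSeries.C_apply, ← algebraMap_laurentSeries_eq_single]
    exact hrel
  rcases 𝔓.P.mem_or_inv_mem c with hcP | hcP
  · left
    refine tbq_mem_of_frac (a := HahnSeries.C (⟨c, hcP⟩ : ↥𝔓.P) * a) (b := b) hb ?_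
    show (f : LaurentSeries Qb) * tbInc 𝔓.P b = tbInc 𝔓.P (HahnSeries.C (⟨c, hcP⟩ : ↥𝔓.P) * a)
    rw [map_mul, tbInc_C, hrel']
  · right
    refine tbq_mem_of_frac (a := HahnSeries.C (⟨c⁻¹, hcP⟩ : ↥𝔓.P) * b) (b := a) ha ?_
    show ((f⁻¹ : ↥(modularFunctionFieldBar N)) : LaurentSeries Qb) * tbInc 𝔓.P a =
      tbInc 𝔓.P (HahnSeries.C (⟨c⁻¹, hcP⟩ : ↥𝔓.P) * b)
    have hf0' : (f : LaurentSeries Qb) ≠ 0 := fun h0 => hf0 (Subtype.ext h0)
    have hC : (HahnSeries.C c : LaurentSeries Qb) ≠ 0 := by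
      intro h0
      apply hc
      have := congrArg (fun s : LaurentSeries Qb => s.coeff 0) h0
      simpa using this
    rw [map_mul, tbInc_C]
    have h1 : ((f⁻¹ : ↥(modularFunctionFieldBar N)) : LaurentSeries Qb) =
        (f : LaurentSeries Qb)⁻¹ := rfl
    rw [h1]
    have h2 : (HahnSeries.C (c⁻¹) : LaurentSeries Qb) = (HahnSeries.C c)⁻¹ := by
      rw [map_inv₀]
    show (f : LaurentSeries Qb)⁻¹ * tbInc 𝔓.P a = HahnSeries.C (c⁻¹) * tbInc 𝔓.P b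
    rw [h2, inv_mul_eq_iff_eq_mul₀ hf0', ← mul_assoc, mul_comm (f : LaurentSeries Qb), mul_assoc,
      hrel', ← mul_assoc, inv_mul_cancel₀ hC, one_mul]

/-- elements of the Gauss ring with non-zero residue are units -/
theorem dlh_unit (x : ↥(tbOvQ 𝔓 N)) (hx : tbResQ (t3aOK 𝔓 N hN) x ≠ 0) :
    ((x : ↥(modularFunctionFieldBar N)))⁻¹ ∈ tbOvQ 𝔓 N := by
  have h0 : tbRhoFun 𝔓.P (IsLocalRing.residue ↥𝔓.P)
      ((x : ↥(modularFunctionFieldBar N)) : LaurentSeries Qb) ≠ 0 := by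
    intro h0
    apply hx
    apply Subtype.ext
    rw [coe_tbResQ, h0]
    rfl
  exact dlh_gauss_inv 𝔓.P (IsLocalRing.residue ↥𝔓.P) x.2 h0

variable (ℓ : ℕ) [NeZero ℓ] (hNℓ : ¬ 𝔓.p ∣ N * ℓ)

/-- **the Gauss rings of `F_N ⊂ F_{Nℓ}` (along `α`)** -/
theorem dlh_redExt :
    @DlhRedExt ↥(modularFunctionFieldBar N) ↥(modularFunctionFieldBar (N * ℓ)) ↥(tbBarF 𝔓 N)
      ↥(tbBarF 𝔓 (N * ℓ)) _ _ _ _ (algebraAlong (heckeAlphaBar Qb N ℓ))
      (algebraAlong (dlhAlphaC (IsLocalRing.ResidueField ↥𝔓.P) N ℓ))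
      (tbOvQ 𝔓 N) (tbOvQ 𝔓 (N * ℓ)) (tbResQ (t3aOK 𝔓 N hN)) (tbResQ (t3aOK 𝔓 (N * ℓ) hNℓ)) := by
  letI := algebraAlong (heckeAlphaBar Qb N ℓ)
  letI := algebraAlong (dlhAlphaC (IsLocalRing.ResidueField ↥𝔓.P) N ℓ)
  have hmem : ∀ x : ↥(tbOvQ 𝔓 N),
      heckeAlphaBar Qb N ℓ (x : ↥(modularFunctionFieldBar N)) ∈ tbOvQ 𝔓 (N * ℓ) := by
    intro x
    rw [mem_tbOvQ, coe_heckeAlphaBar]
    exact x.2
  refine
    { total := dlh_total 𝔓 N hN
      unit := dlh_unit 𝔓 N hN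
      surj' := (tbBaseQ (t3aOK 𝔓 (N * ℓ) hNℓ)).res_surj
      map_mem := hmem
      comp := ?_ }
  intro x
  apply Subtype.ext
  show ((tbResQ (t3aOK 𝔓 (N * ℓ) hNℓ) ⟨heckeAlphaBar Qb N ℓ (x : ↥(modularFunctionFieldBar N)),
    hmem x⟩ : ↥(tbBarF 𝔓 (N * ℓ))) : LaurentSeries (IsLocalRing.ResidueField ↥𝔓.P)) =
    ((dlhAlphaC (IsLocalRing.ResidueField ↥𝔓.P) N ℓ (tbResQ (t3aOK 𝔓 N hN) x) :
      ↥(tbBarF 𝔓 (N * ℓ))) : LaurentSeries (IsLocalRing.ResidueField ↥𝔓.P))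
  rw [coe_tbResQ, coe_dlhAlphaC, coe_tbResQ, coe_heckeAlphaBar]

/-- `β` preserves the Gauss rings -/
theorem dlh_beta_mem (x : ↥(tbOvQ 𝔓 N)) :
    heckeBetaBar Qb N ℓ (x : ↥(modularFunctionFieldBar N)) ∈ tbOvQ 𝔓 (N * ℓ) := by
  rw [mem_tbOvQ, coe_heckeBetaBar]
  exact (dlh_gauss_qExpand 𝔓.P (IsLocalRing.residue ↥𝔓.P) x.2 ℓ).1

/-- `β` commutes with the reduction -/
theorem dlh_res_beta (x : ↥(tbOvQ 𝔓 N)) :
    tbResQ (t3aOK 𝔓 (N * ℓ) hNℓ) ⟨_, dlh_beta_mem 𝔓 N ℓ x⟩ =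
      dlhBetaC (IsLocalRing.ResidueField ↥𝔓.P) N ℓ (tbResQ (t3aOK 𝔓 N hN) x) := by
  apply Subtype.ext
  rw [coe_tbResQ, coe_dlhBetaC, coe_tbResQ, coe_heckeBetaBar]
  exact (dlh_gauss_qExpand 𝔓.P (IsLocalRing.residue ↥𝔓.P) x.2 ℓ).2

end Level

end

end Fermat.Agent.Delta
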