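/-
DELTA / I6 (helper3), package (H), file 5: the **norm formula in characteristic `p`**:
`T̃_ℓ x̄ = N_{F̄_{Nℓ} / ᾱ F̄_N} (β̄ x̄)` for `x̄ ∈ F̄_N`, at a rigid level `N` (`p ∤ N ℓ`).
Proof: reduce the characteristic-zero formula `t3k_norm_eq` through `DlhRedExt.norm_red`.
-/
import Mathlib
import Fermat.Agent.Lib.Delta.Hecke.Gauss

set_option autoImplicit false
set_option linter.unusedSectionVars false
set_option linter.unusedVariables false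
set_option linter.style.haveILetI false
set_option synthInstance.maxHeartbeats 400000

namespace Fermat.Agent.Delta

open ModularCurve HahnSeries Fermat.Agent.T1 Fermat.Agent.T2 Fermat.Agent.TW Fermat.Agent.S24Lib
  Fermat.Agent.S05Lib AlgebraicCurve Fermat.Agent.Curve Fermat.Agent.T3 IntermediateField Module

local notation "Qb" => AlgebraicClosure ℚ

noncomputable section

attribute [local instance 5000] dlhAlgK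

variable (𝔓 : FFPlace) {N ℓ : ℕ} [NeZero N] [NeZero ℓ]

/-- `F̄_{Nℓ} / ᾱ F̄_N` is finite -/
theorem dlh_finite_alphaC (h49 : 4 ∣ N ∨ 9 ∣ N) (hN : ¬ 𝔓.p ∣ N) (hℓ : ℓ.Prime) (hℓN : ¬ ℓ ∣ N)
    (hℓp : ℓ ≠ 𝔓.p) :
    @FiniteDimensional ↥(tbBarF 𝔓 N) ↥(tbBarF 𝔓 (N * ℓ)) _ _
      (algebraAlong (dlhAlphaC (IsLocalRing.ResidueField ↥𝔓.P) N ℓ)).toModule := by
  letI := algebraAlong (dlhAlphaC (IsLocalRing.ResidueField ↥𝔓.P) N ℓ)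
  apply FiniteDimensional.of_finrank_pos
  rw [dlh_finrank_alphaC 𝔓 h49 hN hℓ hℓN hℓp]
  omega

/-- **the norm formula in characteristic `p`** -/
theorem dlh_norm_beta (h49 : 4 ∣ N ∨ 9 ∣ N) (hN : ¬ 𝔓.p ∣ N) (hℓ : ℓ.Prime) (hℓN : ¬ ℓ ∣ N)
    (hℓp : ℓ ≠ 𝔓.p) (ζ : (↥𝔓.P)ˣ)
    (hζK : IsPrimitiveRoot ((Units.map (𝔓.P.subtype : ↥𝔓.P →* Qb) ζ : Qbˣ) : Qb) ℓ)
    (hζk : IsPrimitiveRoot ((Units.map ((IsLocalRing.residue ↥𝔓.P : ↥𝔓.P →+*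
        IsLocalRing.ResidueField ↥𝔓.P) : ↥𝔓.P →* IsLocalRing.ResidueField ↥𝔓.P) ζ :
        (IsLocalRing.ResidueField ↥𝔓.P)ˣ) : IsLocalRing.ResidueField ↥𝔓.P) ℓ)
    (x : ↥(tbBarF 𝔓 N)) :
    ((@Algebra.norm ↥(tbBarF 𝔓 N) ↥(tbBarF 𝔓 (N * ℓ)) _ _
        (algebraAlong (dlhAlphaC (IsLocalRing.ResidueField ↥𝔓.P) N ℓ))
        (dlhBetaC (IsLocalRing.ResidueField ↥𝔓.P) N ℓ x) : ↥(tbBarF 𝔓 N)) :
      LaurentSeries (IsLocalRing.ResidueField ↥𝔓.P)) =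
      tkrTilde ℓ hζk (x : LaurentSeries (IsLocalRing.ResidueField ↥𝔓.P)) := by
  haveI : Fact ℓ.Prime := ⟨hℓ⟩
  have hNℓ : ¬ 𝔓.p ∣ N * ℓ := dlh_not_dvd_mul 𝔓 hN hℓ hℓp
  letI := algebraAlong (heckeAlphaBar Qb N ℓ)
  letI := algebraAlong (dlhAlphaC (IsLocalRing.ResidueField ↥𝔓.P) N ℓ)
  haveI := dlh_finite_alphaC 𝔓 h49 hN hℓ hℓN hℓp
  have d := dlh_redExt 𝔓 N hN ℓ hNℓ
  obtain ⟨y, rfl⟩ := (tbBaseQ (t3aOK 𝔓 N hN)).res_surj x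
  have hdeg : finrank ↥(modularFunctionFieldBar N) ↥(modularFunctionFieldBar (N * ℓ)) =
      finrank ↥(tbBarF 𝔓 N) ↥(tbBarF 𝔓 (N * ℓ)) := by
    rw [dlh_finrank_alphaC 𝔓 h49 hN hℓ hℓN hℓp]
    exact t3k_finrank_alpha N ℓ hℓN
  obtain ⟨hmem, hres⟩ := d.norm_red hdeg
    ⟨heckeBetaBar Qb N ℓ (y : ↥(modularFunctionFieldBar N)), dlh_beta_mem 𝔓 N ℓ y⟩
  rw [dlh_res_beta 𝔓 N hN ℓ hNℓ y] at hres
  show ((Algebra.norm ↥(tbBarF 𝔓 N) (dlhBetaC (IsLocalRing.ResidueField ↥𝔓.P) N ℓ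
    ((tbBaseQ (t3aOK 𝔓 N hN)).res y)) : ↥(tbBarF 𝔓 N)) :
      LaurentSeries (IsLocalRing.ResidueField ↥𝔓.P)) = _
  have hres' : Algebra.norm ↥(tbBarF 𝔓 N) (dlhBetaC (IsLocalRing.ResidueField ↥𝔓.P) N ℓ
      ((tbBaseQ (t3aOK 𝔓 N hN)).res y)) = tbResQ (t3aOK 𝔓 N hN)
        ⟨Algebra.norm ↥(modularFunctionFieldBar N)
          (heckeBetaBar Qb N ℓ (y : ↥(modularFunctionFieldBar N))), hmem⟩ := hres.symm
  rw [hres', coe_tbResQ]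
  have h1 : Algebra.norm ↥(modularFunctionFieldBar N)
      (heckeBetaBar Qb N ℓ (y : ↥(modularFunctionFieldBar N))) =
      tkrHecke N ℓ (y : ↥(modularFunctionFieldBar N)) := t3k_norm_eq N ℓ hℓN _
  show tbRhoFun 𝔓.P (IsLocalRing.residue ↥𝔓.P)
    ((Algebra.norm ↥(modularFunctionFieldBar N)
      (heckeBetaBar Qb N ℓ (y : ↥(modularFunctionFieldBar N))) : ↥(modularFunctionFieldBar N)) :
        LaurentSeries Qb) = _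
  rw [h1, ← tkrTilde_eq_tkrHecke hℓ hℓN hζK,
    (dlh_gauss_tilde 𝔓.P (IsLocalRing.residue ↥𝔓.P) y.2 ℓ ζ hζK hζk).2]
  rfl

end

end Fermat.Agent.Delta
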