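/-
DELTA / I6 (helper3), package (H), file 6: **(E*) `T_ℓ^fun` preserves "`p ∣ ord` at all non-cuspidal
places of `Z_∞`"**:  `dlh_heckeOrd : DlsHeckeOrd 𝔓 N' h` at a rigid level `N'`.

Proof: the reduction of `T_ℓ^fun y` is `T̃_ℓ ȳ = N_{F̄_{N'ℓ} / ᾱ F̄_{N'}} (β̄ ȳ)` (`dlh_norm_beta`);
non-cuspidal places of `F̄_{N'ℓ}` restrict to non-cuspidal places along `ᾱ` and `β̄` (the modular
equation `Φ_ℓ (j(q^ℓ), j(q)) = 0` is monic); the order of a norm is `p`-divisible as soon as the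
orders at all places above are (`dlh_ord_norm_dvd`).
-/
import Mathlib
import Fermat.Agent.Lib.Delta.Hecke.NormBar
import Fermat.Agent.Lib.Delta.Hecke.NormOrd
import Fermat.Agent.Lib.Delta.Slope.Red
import Fermat.Agent.Lib.Delta.Slope.Phi
import Fermat.Agent.Lib.Igusa.ModPoly
import Fermat.Agent.Lib.T3.Hecke.Along

set_option autoImplicit false
set_option linter.unusedSectionVars false
set_option linter.unusedVariables false
set_option linter.style.haveILetI false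
set_option synthInstance.maxHeartbeats 400000

namespace Fermat.Agent.Delta

open ModularCurve HahnSeries Fermat.Agent.T1 Fermat.Agent.T2 Fermat.Agent.TW Fermat.Agent.S24Lib
  Fermat.Agent.S05Lib AlgebraicCurve Fermat.Agent.Curve Fermat.Agent.T3 IntermediateField Module
  Fermat.Agent.Igusa Fermat.Agent.Curve.PlaceAux Fermat.Agent.S33

local notation "Qb" => AlgebraicClosure ℚ

noncomputable section

attribute [local instance 5000] dlhAlgK
attribute [local instance] s33g_neZero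

/-! ### `j̄(q^ℓ)` is integral over `κ[j̄]` -/

section Integral

variable (K : Type*) [Field K] (N ℓ : ℕ) [NeZero N] [NeZero ℓ]

/-- `j̄` at the level `N` -/
def dlhJ : ↥(modularFunctionFieldFullC K N) := ⟨jqModC K, jqModC_mem_full K N⟩

/-- a place of `F̄_{Nℓ}` at which `j̄` is regular is also regular for `j̄(q^ℓ)` -/
theorem dlh_beta_j_mem (hℓ : ℓ.Prime) (w : Place K ↥(modularFunctionFieldFullC K (N * ℓ)))
    (hw : dlhJ K (N * ℓ) ∈ w.toValuationSubring) :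
    dlhBetaC K N ℓ (dlhJ K N) ∈ w.toValuationSubring := by
  letI : Algebra (Polynomial K) ↥(modularFunctionFieldFullC K (N * ℓ)) :=
    (Polynomial.aeval (dlhJ K (N * ℓ))).toRingHom.toAlgebra
  have hR : ∀ r : Polynomial K,
      algebraMap (Polynomial K) ↥(modularFunctionFieldFullC K (N * ℓ)) r ∈
        w.toValuationSubring := by
    intro r
    show Polynomial.aeval (dlhJ K (N * ℓ)) r ∈ w.toValuationSubring
    rw [Polynomial.aeval_eq_sum_range]
    refine Subring.sum_mem _ (fun i _ => ?_)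
    rw [Algebra.smul_def]
    exact Subring.mul_mem _ (w.algebraMap_mem' _) (Subring.pow_mem _ hw i)
  refine mem_of_isIntegral_of_algebraMap_mem w hR ?_
  refine ⟨modPhiK ℓ hℓ K, modPhiK_monic ℓ hℓ K, ?_⟩
  -- transfer the identity of Laurent series
  apply Subtype.val_injective
  have h1 := modPhiK_eval_left ℓ hℓ K
  have h2 : ((modularFunctionFieldFullC K (N * ℓ)).val : _ →+* LaurentSeries K).comp
      (algebraMap (Polynomial K) ↥(modularFunctionFieldFullC K (N * ℓ))) = evalJ K := by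
    apply Polynomial.ringHom_ext
    · intro a
      show ((Polynomial.aeval (dlhJ K (N * ℓ)) (Polynomial.C a) :
        ↥(modularFunctionFieldFullC K (N * ℓ))) : LaurentSeries K) = evalJ K (Polynomial.C a)
      rw [Polynomial.aeval_C, evalJ_C, HahnSeries.C_apply, ← algebraMap_laurentSeries_eq_single]
      rfl
    · show ((Polynomial.aeval (dlhJ K (N * ℓ)) Polynomial.X :
        ↥(modularFunctionFieldFullC K (N * ℓ))) : LaurentSeries K) = evalJ K Polynomial.X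
      rw [Polynomial.aeval_X, evalJ_X]
      rfl
  have h3 := Polynomial.hom_eval₂ (modPhiK ℓ hℓ K)
    (algebraMap (Polynomial K) ↥(modularFunctionFieldFullC K (N * ℓ)))
    ((modularFunctionFieldFullC K (N * ℓ)).val : _ →+* LaurentSeries K)
    (dlhBetaC K N ℓ (dlhJ K N))
  rw [h2] at h3
  exact (h3.trans h1).trans rfl

end Integral

/-! ### The main theorem -/

section Main

variable (𝔓 : FFPlace) (N' : ℕ) [NeZero N'] (h : ¬ 𝔓.p ∣ N')

theorem dlh_barJ_eq (N : ℕ) [NeZero N] :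
    tbBarJ 𝔓 N = dlhJ (IsLocalRing.ResidueField ↥𝔓.P) N := rfl

/-- **(E*)** at a rigid level -/
theorem dlh_heckeOrd (h49 : 4 ∣ N' ∨ 9 ∣ N') : DlsHeckeOrd 𝔓 N' h := by
  intro ℓ hℓ hℓN y hy Ty hTy s hs
  haveI : NeZero ℓ := ⟨hℓ.ne_zero⟩
  have hℓN' : ¬ ℓ ∣ N' := fun h1 => hℓN (h1.mul_right _)
  have hℓp : ℓ ≠ 𝔓.p := by
    rintro rfl
    exact hℓN (dvd_mul_left _ _)
  have h49' : 4 ∣ N' * ℓ ∨ 9 ∣ N' * ℓ := h49.imp (fun h => h.mul_right ℓ) (fun h => h.mul_right ℓ)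
  have hNℓ : ¬ 𝔓.p ∣ N' * ℓ := dlh_not_dvd_mul 𝔓 h hℓ hℓp
  obtain ⟨ζ, hζK, hζk⟩ := dls_exists_zeta 𝔓 hℓ hℓp
  -- the reduction of `T y`
  have hred := (dlsRed_spec 𝔓 N' h y).tilde ℓ ζ hζK hζk
  rw [tkrTilde_eq_tkrHecke hℓ hℓN hζK, ← hTy] at hred
  letI := algebraAlong (dlhAlphaC (IsLocalRing.ResidueField ↥𝔓.P) N' ℓ)
  haveI := isScalarTower_along (dlhAlphaC (IsLocalRing.ResidueField ↥𝔓.P) N' ℓ)
  haveI := dlh_finite_alphaC 𝔓 h49 h hℓ hℓN' hℓp
  haveI := dlh_separable_alphaC 𝔓 h49 h hℓ hℓp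
  rw [← dlh_norm_beta 𝔓 h49 h hℓ hℓN' hℓp ζ hζK hζk (dlsRed 𝔓 N' h y)] at hred
  rw [dlsSlope_eq_of_redTo 𝔓 N' h Ty _ hred s, ZMod.intCast_zmod_eq_zero_iff_dvd]
  -- `p`-divisibility of the order of the norm
  have hy0 := dlsRed_ne_zero 𝔓 N' h y
  have hβ0 : dlhBetaC (IsLocalRing.ResidueField ↥𝔓.P) N' ℓ (dlsRed 𝔓 N' h y) ≠ 0 := by
    rw [ne_eq, map_eq_zero]
    exact hy0
  have hβint : (dlhBetaC (IsLocalRing.ResidueField ↥𝔓.P) N' ℓ).toRingHom.IsIntegral :=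
    t3h_isIntegralAlong (tkr_barOK 𝔓 h49 h).gen (tkr_barOK 𝔓 h49' hNℓ).gen _
  refine dlh_ord_norm_dvd s 𝔓.p hβ0 (fun w hw => ?_)
  -- `w` is non-cuspidal
  have hwj : dlhJ (IsLocalRing.ResidueField ↥𝔓.P) (N' * ℓ) ∈ w.toValuationSubring := by
    have h1 : tbBarJ 𝔓 N' ∈ (w.restrict ↥(tbBarF 𝔓 N')).toValuationSubring := by
      rw [hw]
      exact mem_of_ord_nonneg s hs
    rw [Place.mem_restrict_iff] at h1
    have h2 : algebraMap ↥(tbBarF 𝔓 N') ↥(tbBarF 𝔓 (N' * ℓ)) (tbBarJ 𝔓 N') =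
        dlhJ (IsLocalRing.ResidueField ↥𝔓.P) (N' * ℓ) := dlh_alpha_barJ 𝔓 N' ℓ
    rwa [h2] at h1
  have hwβ := dlh_beta_j_mem (IsLocalRing.ResidueField ↥𝔓.P) N' ℓ hℓ w hwj
  -- the restriction of `w` along `β̄` is non-cuspidal
  have hfin : DlsFin 𝔓 N' (w.restrictAlong (dlhBetaC (IsLocalRing.ResidueField ↥𝔓.P) N' ℓ) hβint) := by
    have h1 : tbBarJ 𝔓 N' ∈ (w.restrictAlong (dlhBetaC (IsLocalRing.ResidueField ↥𝔓.P) N' ℓ)
        hβint).toValuationSubring := hwβ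
    exact ord_nonneg_of_mem _ h1
  have h3 := hy _ hfin
  rw [dlsSlope, ZMod.intCast_zmod_eq_zero_iff_dvd] at h3
  rw [Place.ord_restrictAlong (dlhBetaC (IsLocalRing.ResidueField ↥𝔓.P) N' ℓ) hβint w]
  exact Dvd.dvd.mul_left h3 _

end Main

end

end Fermat.Agent.Delta
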